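/-
helper47, P-CHEB / CHEB-F: the glue
`FrobeniusNFStatement → BridgeStatement → FrobeniusDensityStatement`
(normal closure of `K` inside `ℚ̄`, restriction of Frobenius elements).
-/
import Fermat.Agent.H62.Cheb.Interfaces
import Fermat.Agent.H53.FrobeniusExists

set_option autoImplicit false

open NumberField Ideal IsDedekindDomain
open scoped Pointwise Classical

namespace Fermat.Agent.H47

/-- **CHEB-F**: Frobenius' density theorem in the prelude language, from its number-field form
and the bridge between primes of a finite Galois `N ⊆ ℚ̄` and places of `ℚ̄`. -/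
theorem frobeniusDensity_of_parts
    (hNF : Fermat.Agent.H62.Cheb.FrobeniusNFStatement)
    (hBr : Fermat.Agent.H62.Cheb.BridgeStatement) :
    Fermat.Agent.H62.Cheb.FrobeniusDensityStatement := by
  intro K _ σ T
  -- the normal closure of `K` in `ℚ̄`
  let N : IntermediateField ℚ (AlgebraicClosure ℚ) :=
    IntermediateField.normalClosure ℚ K (AlgebraicClosure ℚ)
  have hQgal : IsGalois ℚ (AlgebraicClosure ℚ) := Fermat.Agent.H53.isGalois_algebraicClosure_rat
  have hQbar : Normal ℚ (AlgebraicClosure ℚ) := IsGalois.to_normal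
  have hfd : FiniteDimensional ℚ N :=
    normalClosure.is_finiteDimensional ℚ K (AlgebraicClosure ℚ)
  have hnorm : Normal ℚ N :=
    normalClosure.normal ℚ K (AlgebraicClosure ℚ)
  have hgal : IsGalois ℚ N := ⟨⟩
  have hKN : K ≤ N := IntermediateField.le_normalClosure K
  obtain ⟨p, hp, hpT, hpd, v, hpv, hstab⟩ := hNF N (AlgEquiv.restrictNormalHom N σ) T
  obtain ⟨A, hA, -, hin, hfrob⟩ := hBr N p hp hpd v hpv
  obtain ⟨τ, hτ⟩ := Fermat.Agent.H53.exists_isFrobeniusAt_algebraicClosure hp A hA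
  have h1 := hfrob τ hτ
  have h2 : AlgEquiv.restrictNormalHom N σ ∈
      Subgroup.zpowers (AlgEquiv.restrictNormalHom N τ) := by
    rw [h1, hstab]
    exact Subgroup.mem_zpowers _
  rw [← mem_powers_iff_mem_zpowers, Submonoid.mem_powers_iff] at h2
  obtain ⟨j, hj⟩ := h2
  refine ⟨p, hp, hpT, A, hA, fun ι hι x hx => hin ι hι x (hKN hx), τ, hτ, j, fun x hx => ?_⟩
  have hx' : x ∈ N := hKN hx
  rw [← map_pow] at hj
  have h3 := AlgEquiv.restrictNormal_commutes (τ ^ j) N ⟨x, hx'⟩
  have h4 := AlgEquiv.restrictNormal_commutes σ N ⟨x, hx'⟩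
  have h5 : (τ ^ j).restrictNormal N = σ.restrictNormal N := hj
  rw [h5] at h3
  have h6 : (τ ^ j) (algebraMap N (AlgebraicClosure ℚ) ⟨x, hx'⟩)
      = σ (algebraMap N (AlgebraicClosure ℚ) ⟨x, hx'⟩) := by
    rw [← h3, ← h4]
  exact h6

end Fermat.Agent.H47
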